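import Fermat.Agent.S21.E.RH.Transport
import Fermat.Agent.S21.E.Div

/-!
# Project ES, part E, package E-RH: the weight inequality

If `Φ = F * H` is holomorphic on `ℍ`, transforms like a level one modular form of weight `k`,
is bounded at `i∞`, is not identically zero, and `F` (with `SL(2,ℤ)`-invariant norm) vanishes
to order `≥ A` at `i` and to order `≥ B` at `ρ`, then `6 A + 4 B ≤ k`:
the quotient `Φ / (E₆ ^ A * E₄ ^ B)` is a nonzero level one modular form of weight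
`k - 6 A - 4 B`.
-/

set_option autoImplicit false

open UpperHalfPlane hiding I
open Complex Filter Function Topology
open scoped Manifold MatrixGroups ModularForm Real

namespace Fermat.Agent.S21.E.RHTransport

noncomputable section

local notation "Δ" => ModularForm.discriminant
local notation "E₄" => ModularForm.E₄
local notation "E₆" => ModularForm.E₆

/-- the function `E₆ ^ A * E₄ ^ B` -/
def eFun (A B : ℕ) : ℍ → ℂ := fun z => E₆ z ^ A * E₄ z ^ B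

lemma mdiff_eFun (A B : ℕ) : MDiff (eFun A B) :=
  ((Fermat.Agent.S21.J1.levelOne_mdiff E₆).pow A).mul
    ((Fermat.Agent.S21.J1.levelOne_mdiff E₄).pow B)

lemma E4_tendsto : Tendsto (E₄ : ℍ → ℂ) atImInfty (𝓝 1) := by
  have h := Fermat.Agent.S21.J1.levelOne_tendsto_atImInfty E₄
  rwa [EisensteinSeries.E_qExpansion_coeff_zero _ ⟨2, rfl⟩] at h

lemma E6_tendsto : Tendsto (E₆ : ℍ → ℂ) atImInfty (𝓝 1) := by
  have h := Fermat.Agent.S21.J1.levelOne_tendsto_atImInfty E₆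
  rwa [EisensteinSeries.E_qExpansion_coeff_zero _ ⟨3, rfl⟩] at h

lemma eFun_tendsto (A B : ℕ) : Tendsto (eFun A B) atImInfty (𝓝 1) := by
  have := (E6_tendsto.pow A).mul (E4_tendsto.pow B)
  simp only [one_pow, mul_one] at this
  exact this

lemma eFun_eventually_norm_ge (A B : ℕ) : ∀ᶠ z in atImInfty, (1 / 2 : ℝ) ≤ ‖eFun A B z‖ := by
  have h1 : Tendsto (fun z => ‖eFun A B z‖) atImInfty (𝓝 1) := by
    simpa using (eFun_tendsto A B).norm
  have : ∀ᶠ z in atImInfty, (1 / 2 : ℝ) < ‖eFun A B z‖ :=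
    h1.eventually (lt_mem_nhds (by norm_num))
  exact this.mono fun z hz => hz.le

lemma exists_eFun_ne_zero (A B : ℕ) : ∃ z, eFun A B z ≠ 0 := by
  obtain ⟨z, hz⟩ := (eFun_eventually_norm_ge A B).exists
  exact ⟨z, fun h => by rw [h, norm_zero] at hz; norm_num at hz⟩

lemma eFun_smul (A B : ℕ) (g : SL(2, ℤ)) (z : ℍ) :
    eFun A B (g • z) = (denom g z) ^ ((6 * A + 4 * B : ℕ) : ℤ) * eFun A B z := by
  simp only [eFun]
  rw [Fermat.Agent.S21.J1.levelOne_smul_apply E₆ g z,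
    Fermat.Agent.S21.J1.levelOne_smul_apply E₄ g z, mul_pow, mul_pow]
  have h6 : ((denom g z) ^ (6 : ℤ)) ^ A = (denom g z) ^ (6 * A) := by
    rw [← zpow_natCast, ← zpow_mul, ← zpow_natCast]; norm_cast
  have h4 : ((denom g z) ^ (4 : ℤ)) ^ B = (denom g z) ^ (4 * B) := by
    rw [← zpow_natCast, ← zpow_mul, ← zpow_natCast]; norm_cast
  rw [h6, h4, zpow_natCast, pow_add]
  ring

/-- `E₆ ^ A * E₄ ^ B` does not vanish on a punctured neighbourhood of any point -/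
lemma eFun_eventually_ne_zero (A B : ℕ) (z₀ : ℍ) : ∀ᶠ z in 𝓝[≠] z₀, eFun A B z ≠ 0 := by
  have h6 : ∀ᶠ z in 𝓝[≠] z₀, E₆ z ≠ 0 := by
    by_cases h : E₆ z₀ = 0
    · obtain ⟨c, hc, hb⟩ := E6_lower_bound h
      have hb' : ∀ᶠ z : ℍ in 𝓝[≠] z₀, c * ‖(z : ℂ) - z₀‖ ≤ ‖E₆ z‖ :=
        hb.filter_mono nhdsWithin_le_nhds
      filter_upwards [hb', self_mem_nhdsWithin] with z hz hne h0
      rw [h0, norm_zero] at hz
      have hpos : 0 < ‖(z : ℂ) - z₀‖ := by
        rw [norm_pos_iff, sub_ne_zero]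
        intro heq
        exact hne (UpperHalfPlane.ext heq)
      nlinarith
    · obtain ⟨c, hc, hb⟩ := lower_bound_of_ne_zero (Fermat.Agent.S21.J1.levelOne_mdiff E₆) h
      have hb' : ∀ᶠ z in 𝓝[≠] z₀, c ≤ ‖E₆ z‖ := hb.filter_mono nhdsWithin_le_nhds
      filter_upwards [hb'] with z hz h0
      rw [h0, norm_zero] at hz
      linarith
  have h4 : ∀ᶠ z in 𝓝[≠] z₀, E₄ z ≠ 0 := by
    by_cases h : E₄ z₀ = 0
    · obtain ⟨c, hc, hb⟩ := E4_lower_bound h
      have hb' : ∀ᶠ z : ℍ in 𝓝[≠] z₀, c * ‖(z : ℂ) - z₀‖ ≤ ‖E₄ z‖ :=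
        hb.filter_mono nhdsWithin_le_nhds
      filter_upwards [hb', self_mem_nhdsWithin] with z hz hne h0
      rw [h0, norm_zero] at hz
      have hpos : 0 < ‖(z : ℂ) - z₀‖ := by
        rw [norm_pos_iff, sub_ne_zero]
        intro heq
        exact hne (UpperHalfPlane.ext heq)
      nlinarith
    · obtain ⟨c, hc, hb⟩ := lower_bound_of_ne_zero (Fermat.Agent.S21.J1.levelOne_mdiff E₄) h
      have hb' : ∀ᶠ z in 𝓝[≠] z₀, c ≤ ‖E₄ z‖ := hb.filter_mono nhdsWithin_le_nhds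
      filter_upwards [hb'] with z hz h0
      rw [h0, norm_zero] at hz
      linarith
  filter_upwards [h6, h4] with z hz6 hz4
  exact mul_ne_zero (pow_ne_zero _ hz6) (pow_ne_zero _ hz4)

/-- the transformation rule of the quotient, on the set where `E₆ ^ A * E₄ ^ B ≠ 0` -/
lemma quotient_smul_of_ne_zero {Φ R : ℍ → ℂ} {k : ℤ} {A B : ℕ}
    (hΦ : ∀ (g : SL(2, ℤ)) (z : ℍ), Φ (g • z) = denom g z ^ k * Φ z)
    (hR : ∀ z, Φ z = eFun A B z * R z) (g : SL(2, ℤ)) (z : ℍ) (hz : eFun A B z ≠ 0) :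
    R (g • z) = denom g z ^ (k - ((6 * A + 4 * B : ℕ) : ℤ)) * R z := by
  have hd : denom g z ≠ 0 := denom_ne_zero g z
  have h1 := hR (g • z)
  rw [hΦ, hR z, eFun_smul] at h1
  have hd' : denom g z ^ ((6 * A + 4 * B : ℕ) : ℤ) ≠ 0 := zpow_ne_zero _ hd
  rw [zpow_sub₀ hd]
  field_simp
  have h2 : eFun A B z * (denom g z ^ ((6 * A + 4 * B : ℕ) : ℤ) * R (g • z)) =
      eFun A B z * (denom g z ^ k * R z) := by
    linear_combination -h1
  have h3 := mul_left_cancel₀ hz h2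
  linear_combination h3

/-- the transformation rule of the quotient -/
lemma quotient_smul {Φ R : ℍ → ℂ} {k : ℤ} {A B : ℕ}
    (hΦ : ∀ (g : SL(2, ℤ)) (z : ℍ), Φ (g • z) = denom g z ^ k * Φ z) (hRm : MDiff R)
    (hR : ∀ z, Φ z = eFun A B z * R z) (g : SL(2, ℤ)) (z₀ : ℍ) :
    R (g • z₀) = denom g z₀ ^ (k - ((6 * A + 4 * B : ℕ) : ℤ)) * R z₀ := by
  set w : ℤ := k - ((6 * A + 4 * B : ℕ) : ℤ) with hw
  have hRc : Continuous R := hRm.continuous
  have hden : Continuous (fun z : ℍ => denom g z) := by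
    have : (fun z : ℍ => denom g z) = fun z : ℍ => ((g 1 0 : ℤ) : ℂ) * (z : ℂ) + ((g 1 1 : ℤ) : ℂ) := by
      funext z
      rw [ModularGroup.denom_apply]
    rw [this]
    exact (continuous_const.mul UpperHalfPlane.continuous_coe).add continuous_const
  have hcont : ContinuousAt (fun z : ℍ => R (g • z) - denom g z ^ w * R z) z₀ := by
    refine ((hRc.comp (continuous_smul_SL g)).continuousAt).sub ?_
    exact (hden.continuousAt.zpow₀ w (Or.inl (denom_ne_zero g z₀))).mul hRc.continuousAt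
  have hev : ∀ᶠ z in 𝓝[≠] z₀, R (g • z) - denom g z ^ w * R z = 0 := by
    filter_upwards [eFun_eventually_ne_zero A B z₀] with z hz
    rw [quotient_smul_of_ne_zero hΦ hR g z hz, sub_self]
  have h1 : Tendsto (fun z : ℍ => R (g • z) - denom g z ^ w * R z) (𝓝[≠] z₀)
      (𝓝 (R (g • z₀) - denom g z₀ ^ w * R z₀)) := hcont.tendsto.mono_left nhdsWithin_le_nhds
  have h2 : Tendsto (fun z : ℍ => R (g • z) - denom g z ^ w * R z) (𝓝[≠] z₀) (𝓝 0) :=
    (tendsto_congr' hev).mpr tendsto_const_nhds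
  exact sub_eq_zero.mp (tendsto_nhds_unique h1 h2)

/-- the quotient is bounded at `i∞` -/
lemma quotient_isBoundedAtImInfty {Φ R : ℍ → ℂ} {A B : ℕ} (hb : IsBoundedAtImInfty Φ)
    (hR : ∀ z, Φ z = eFun A B z * R z) : IsBoundedAtImInfty R := by
  rw [UpperHalfPlane.isBoundedAtImInfty_iff] at hb ⊢
  obtain ⟨M, A₀, hM⟩ := hb
  have hE := eFun_eventually_norm_ge A B
  rw [Filter.Eventually, UpperHalfPlane.atImInfty_mem] at hE
  obtain ⟨A₁, hA₁⟩ := hE
  refine ⟨2 * M, max A₀ A₁, fun z hz => ?_⟩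
  have h1 := hM z ((le_max_left _ _).trans hz)
  have h2 : (1 / 2 : ℝ) ≤ ‖eFun A B z‖ := hA₁ z ((le_max_right _ _).trans hz)
  rw [hR z, norm_mul] at h1
  have h3 : 0 ≤ ‖R z‖ := norm_nonneg _
  nlinarith

/-- the quotient as a level one modular form -/
def quotientMF {Φ R : ℍ → ℂ} {k : ℤ} {A B : ℕ}
    (hΦ : ∀ (g : SL(2, ℤ)) (z : ℍ), Φ (g • z) = denom g z ^ k * Φ z)
    (hb : IsBoundedAtImInfty Φ) (hRm : MDiff R) (hR : ∀ z, Φ z = eFun A B z * R z) :
    ModularForm 𝒮ℒ (k - ((6 * A + 4 * B : ℕ) : ℤ)) where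
  toFun := R
  slash_action_eq' γ hγ := by
    obtain ⟨γ, rfl⟩ := hγ
    funext z
    have h := quotient_smul hΦ hRm hR γ z
    have hd : denom γ z ≠ 0 := denom_ne_zero γ z
    change (R ∣[k - ((6 * A + 4 * B : ℕ) : ℤ)] γ) z = R z
    rw [ModularForm.SL_slash_apply, h, zpow_neg]
    have hd' : denom γ z ^ (k - ((6 * A + 4 * B : ℕ) : ℤ)) ≠ 0 := zpow_ne_zero _ hd
    field_simp
  holo' := hRm
  bdd_at_cusps' hc := by
    rw [Subgroup.IsArithmetic.isCusp_iff_isCusp_SL2Z] at hc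
    rw [OnePoint.isBoundedAt_iff_forall_SL2Z hc]
    intro γ _
    have hsl : R ∣[k - ((6 * A + 4 * B : ℕ) : ℤ)] γ = R := by
      funext z
      have h := quotient_smul hΦ hRm hR γ z
      have hd : denom γ z ≠ 0 := denom_ne_zero γ z
      rw [ModularForm.SL_slash_apply, h, zpow_neg]
      have hd' : denom γ z ^ (k - ((6 * A + 4 * B : ℕ) : ℤ)) ≠ 0 := zpow_ne_zero _ hd
      field_simp
    rw [hsl]
    exact quotient_isBoundedAtImInfty hb hR

/-- **The weight inequality.** -/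
theorem weight_ineq {F H : ℍ → ℂ} (hFm : MDiff F)
    (hFinv : ∀ (g : SL(2, ℤ)) (z : ℍ), F (g • z) = F z)
    (hHm : MDiff H) {k : ℤ} (hHmod : ∀ (g : SL(2, ℤ)) (z : ℍ), H (g • z) = denom g z ^ k * H z)
    (hbdd : IsBoundedAtImInfty (fun z => F z * H z)) (hne : ∃ z, F z * H z ≠ 0) {A B : ℕ}
    (hI : ∃ C : ℝ, ∀ᶠ z : ℍ in 𝓝 UpperHalfPlane.I, ‖F z‖ ≤ C * ‖(z : ℂ) - Complex.I‖ ^ A)
    (hρ : ∃ C : ℝ, ∀ᶠ z : ℍ in 𝓝 rho, ‖F z‖ ≤ C * ‖(z : ℂ) - rho‖ ^ B) :
    ((6 * A + 4 * B : ℕ) : ℤ) ≤ k := by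
  have hnorm : ∀ (g : SL(2, ℤ)) (z : ℍ), ‖F (g • z)‖ = ‖F z‖ := fun g z => by rw [hFinv]
  obtain ⟨R, hRm, hR⟩ := exists_mdiff_quotient (f := fun z => F z * H z) (g := eFun A B)
    (hFm.mul hHm) (mdiff_eFun A B) (exists_eFun_ne_zero A B)
    (fun z₀ hz₀ => quotient_bound hnorm hHm hI hρ z₀ hz₀)
  have hΦ : ∀ (g : SL(2, ℤ)) (z : ℍ),
      (fun z => F z * H z) (g • z) = denom g z ^ k * (fun z => F z * H z) z := by
    intro g z
    simp only [hFinv, hHmod]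
    ring
  by_contra hlt
  rw [not_le] at hlt
  have hw : k - ((6 * A + 4 * B : ℕ) : ℤ) < 0 := by omega
  have hzero := ModularFormClass.levelOne_neg_weight_eq_zero hw (quotientMF hΦ hbdd hRm hR)
  obtain ⟨z, hz⟩ := hne
  apply hz
  have hRz : R z = 0 := congrFun hzero z
  have := hR z
  rw [this, hRz, mul_zero]

end

end Fermat.Agent.S21.E.RHTransport
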