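import Fermat.Agent.S21.E.Defs
import Fermat.Agent.S21.E.J1

/-!
# Project ES, part E, work package E-RH: local bounds (helper module)

Elementary manipulations of local norm bounds on the upper half plane, used in the proof of
the Riemann-Hurwitz lower bound `total_ge`:

* `fixCount_le_index`, `cuspOrbitCount_le_index`;
* `bound_of_lower`: from `‖F‖ ≤ C r^A` and `c r ≤ ‖E‖` to `‖F‖ ≤ C' ‖E‖^A`;
* `bound_orbit`: transport of a bound `‖F‖ ≤ C ‖E‖^A` along the `SL(2,ℤ)`-orbit of a point,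
  for an invariant function `F` and a level one modular form `E`;
* `bound_mul`: multiplication of a bound by a locally bounded factor on the left and a locally
  nonvanishing factor on the right.
-/

set_option autoImplicit false

open UpperHalfPlane hiding I
open Complex Filter Function Topology
open scoped Manifold MatrixGroups ModularForm Real

namespace Fermat.Agent.S21.E

noncomputable section

namespace RH

variable {Γ : Subgroup SL(2, ℤ)}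

theorem fixCount_le_index [Γ.FiniteIndex] (g : SL(2, ℤ)) : fixCount Γ g ≤ Γ.index := by
  have : Finite (SL(2, ℤ) ⧸ Γ) := Subgroup.finite_quotient_of_finiteIndex
  exact Nat.card_le_card_of_injective (fun x : {x : SL(2, ℤ) ⧸ Γ // g • x = x} => x.1)
    Subtype.val_injective

theorem cuspOrbitCount_le_index [Γ.FiniteIndex] : cuspOrbitCount Γ ≤ Γ.index := by
  have : Finite (SL(2, ℤ) ⧸ Γ) := Subgroup.finite_quotient_of_finiteIndex
  exact Nat.card_le_card_of_surjective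
    (Quotient.mk'' : (SL(2, ℤ) ⧸ Γ) →
      MulAction.orbitRel.Quotient (Subgroup.zpowers ModularGroup.T) (SL(2, ℤ) ⧸ Γ))
    Quotient.mk''_surjective

/-- from `‖F‖ ≤ C r^A` and `c r ≤ ‖E‖` (`c > 0`) to `‖F‖ ≤ C' ‖E‖^A` -/
theorem bound_of_lower {F E : ℍ → ℂ} {r : ℍ → ℝ} (hr : ∀ z, 0 ≤ r z) {p : ℍ} {A : ℕ}
    (hF : ∃ C : ℝ, ∀ᶠ z : ℍ in 𝓝 p, ‖F z‖ ≤ C * r z ^ A)
    (hE : ∃ c : ℝ, 0 < c ∧ ∀ᶠ z : ℍ in 𝓝 p, c * r z ≤ ‖E z‖) :
    ∃ C : ℝ, 0 ≤ C ∧ ∀ᶠ z : ℍ in 𝓝 p, ‖F z‖ ≤ C * ‖E z‖ ^ A := by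
  obtain ⟨C, hC⟩ := hF
  obtain ⟨c, hc, hcE⟩ := hE
  refine ⟨max C 0 / c ^ A, by positivity, ?_⟩
  filter_upwards [hC, hcE] with z h1 h2
  have h3 : (c * r z) ^ A ≤ ‖E z‖ ^ A :=
    pow_le_pow_left₀ (mul_nonneg hc.le (hr z)) h2 A
  have h4 : r z ^ A = (c * r z) ^ A / c ^ A := by
    rw [mul_pow]; field_simp
  calc ‖F z‖ ≤ C * r z ^ A := h1
    _ ≤ max C 0 * r z ^ A :=
        mul_le_mul_of_nonneg_right (le_max_left _ _) (pow_nonneg (hr z) A)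
    _ = max C 0 / c ^ A * (c * r z) ^ A := by rw [h4]; ring
    _ ≤ max C 0 / c ^ A * ‖E z‖ ^ A :=
        mul_le_mul_of_nonneg_left h3 (by positivity)

theorem continuous_smul_SL (g : SL(2, ℤ)) : Continuous (fun z : ℍ => g • z) := by
  have : (fun z : ℍ => g • z) = fun z : ℍ => (g : GL (Fin 2) ℝ) • z := rfl
  rw [this]
  exact continuous_const_smul _

theorem continuous_denom_SL (g : SL(2, ℤ)) : Continuous (fun z : ℍ => denom g z) := by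
  unfold denom
  fun_prop

/-- transport of a bound `‖F‖ ≤ C ‖E‖^A` from `p = h • q` to `q` -/
theorem bound_pullback {F : ℍ → ℂ} (hF : ∀ (h : SL(2, ℤ)) (z : ℍ), F (h • z) = F z) {k : ℤ}
    (E : ModularForm 𝒮ℒ k) {p q : ℍ} {A : ℕ} (h : SL(2, ℤ)) (hq : h • q = p)
    (hb : ∃ C : ℝ, 0 ≤ C ∧ ∀ᶠ z : ℍ in 𝓝 p, ‖F z‖ ≤ C * ‖E z‖ ^ A) :
    ∃ C : ℝ, 0 ≤ C ∧ ∀ᶠ z : ℍ in 𝓝 q, ‖F z‖ ≤ C * ‖E z‖ ^ A := by
  obtain ⟨C, hC0, hC⟩ := hb
  have hcont : ContinuousAt (fun z : ℍ => h • z) q := (continuous_smul_SL h).continuousAt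
  have htend : Tendsto (fun z : ℍ => h • z) (𝓝 q) (𝓝 p) := by
    have := hcont.tendsto
    rwa [hq] at this
  have h1 := htend.eventually hC
  -- local bound for the automorphy factor
  have hd : ContinuousAt (fun z : ℍ => ‖denom h z ^ k‖) q := by
    have hne : denom h (q : ℂ) ≠ 0 := denom_ne_zero _ _
    exact ((continuous_denom_SL h).continuousAt.zpow₀ k (Or.inl hne)).norm
  set M : ℝ := ‖denom h (q : ℂ) ^ k‖ + 1 with hM
  have hM0 : 0 ≤ M := by positivity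
  have h2 : ∀ᶠ z : ℍ in 𝓝 q, ‖denom h z ^ k‖ < M :=
    hd.eventually_lt continuousAt_const (by simp [hM])
  refine ⟨C * M ^ A, by positivity, ?_⟩
  filter_upwards [h1, h2] with z hz1 hz2
  rw [hF, Fermat.Agent.S21.J1.levelOne_smul_apply, norm_mul, mul_pow] at hz1
  calc ‖F z‖ ≤ C * (‖denom h z ^ k‖ ^ A * ‖E z‖ ^ A) := hz1
    _ ≤ C * (M ^ A * ‖E z‖ ^ A) := by
        gcongr
    _ = C * M ^ A * ‖E z‖ ^ A := by ring

/-- transport of a bound `‖F‖ ≤ C ‖E‖^A` along the `SL(2,ℤ)`-orbit of a point -/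
theorem bound_orbit {F : ℍ → ℂ} (hF : ∀ (h : SL(2, ℤ)) (z : ℍ), F (h • z) = F z) {k : ℤ}
    (E : ModularForm 𝒮ℒ k) {p : ℍ} {A : ℕ}
    (hb : ∃ C : ℝ, 0 ≤ C ∧ ∀ᶠ z : ℍ in 𝓝 p, ‖F z‖ ≤ C * ‖E z‖ ^ A) (g₀ : SL(2, ℤ)) :
    ∃ C : ℝ, 0 ≤ C ∧ ∀ᶠ z : ℍ in 𝓝 (g₀ • p), ‖F z‖ ≤ C * ‖E z‖ ^ A :=
  bound_pullback hF E g₀⁻¹ (inv_smul_smul g₀ p) hb

/-- multiplication of a bound by a locally bounded factor on the left and a locally
nonvanishing factor on the right -/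
theorem bound_mul {F u v h : ℍ → ℂ} {z₀ : ℍ}
    (hb : ∃ C : ℝ, 0 ≤ C ∧ ∀ᶠ z : ℍ in 𝓝 z₀, ‖F z‖ ≤ C * ‖u z‖)
    (hh : ContinuousAt h z₀) (hv : ContinuousAt v z₀) (hv0 : v z₀ ≠ 0) :
    ∃ C : ℝ, ∀ᶠ z : ℍ in 𝓝 z₀, ‖F z * h z‖ ≤ C * ‖u z * v z‖ := by
  obtain ⟨C, hC0, hC⟩ := hb
  set M : ℝ := ‖h z₀‖ + 1 with hM
  have hM0 : 0 ≤ M := by positivity
  have h1 : ∀ᶠ z : ℍ in 𝓝 z₀, ‖h z‖ < M :=
    hh.norm.eventually_lt continuousAt_const (by simp [hM])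
  have hc : 0 < ‖v z₀‖ / 2 := by
    have := norm_pos_iff.mpr hv0
    positivity
  have h2 : ∀ᶠ z : ℍ in 𝓝 z₀, ‖v z₀‖ / 2 < ‖v z‖ :=
    continuousAt_const.eventually_lt hv.norm (by linarith)
  refine ⟨C * M / (‖v z₀‖ / 2), ?_⟩
  filter_upwards [hC, h1, h2] with z hz hz1 hz2
  rw [norm_mul, norm_mul]
  have h3 : ‖F z‖ * ‖h z‖ ≤ C * ‖u z‖ * M :=
    mul_le_mul hz hz1.le (norm_nonneg _) (by positivity)
  have h4 : C * ‖u z‖ * M = C * M / (‖v z₀‖ / 2) * (‖u z‖ * (‖v z₀‖ / 2)) := by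
    field_simp
  rw [h4] at h3
  refine h3.trans ?_
  gcongr

end RH

end

end Fermat.Agent.S21.E
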