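import Fermat.Agent.S21.E.Defs
import Fermat.Agent.S21.E.J1

/-!
# Project ES, part E, work package E-RH: a quotient of negative weight vanishes (helper module)

If `f = g * R` with `f`, `g`, `R` holomorphic on `ℍ`, `f` and `g` transforming under `SL(2,ℤ)`
with weights `a < c`, `f` bounded at `i∞` and `g → 1` at `i∞`, then `R = 0`
(`R` is a level one modular form of negative weight `a - c`).
-/

set_option autoImplicit false

open UpperHalfPlane hiding I
open Complex Filter Function Topology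
open scoped Manifold MatrixGroups ModularForm Real

namespace Fermat.Agent.S21.E

noncomputable section

namespace RH

/-- slash invariance of the quotient -/
theorem quot_slash {f g R : ℍ → ℂ} (hg : MDiff g) (hR : MDiff R) (hg0 : g ≠ 0)
    (hfR : ∀ z, f z = g z * R z) (a c : ℤ)
    (hf_tr : ∀ (γ : SL(2, ℤ)) (z : ℍ), f (γ • z) = denom γ z ^ a * f z)
    (hg_tr : ∀ (γ : SL(2, ℤ)) (z : ℍ), g (γ • z) = denom γ z ^ c * g z) (γ : SL(2, ℤ)) :
    R ∣[a - c] γ = R := by
  have hmd : MDiff (R ∣[a - c] γ - R) := (hR.slash (a - c) γ).sub hR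
  have hprod : (R ∣[a - c] γ - R) * g = 0 := by
    funext z
    have hd : denom γ z ≠ 0 := denom_ne_zero γ z
    have h1 := hfR (γ • z)
    rw [hf_tr, hg_tr, hfR z] at h1
    have hc : denom γ z ^ c ≠ 0 := zpow_ne_zero c hd
    have ha : denom γ z ^ a ≠ 0 := zpow_ne_zero a hd
    have h2 : (R ∣[a - c] γ) z = R (γ • z) * (denom γ z ^ c * (denom γ z ^ a)⁻¹) := by
      rw [ModularForm.SL_slash_apply, neg_sub, zpow_sub₀ hd, div_eq_mul_inv]
    simp only [Pi.mul_apply, Pi.sub_apply, Pi.zero_apply]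
    rw [h2]
    have h3 : R (γ • z) * (denom γ z ^ c * (denom γ z ^ a)⁻¹) * g z
        = (denom γ z ^ a)⁻¹ * (denom γ z ^ c * g z * R (γ • z)) := by ring
    rw [sub_mul, h3, ← h1]
    field_simp
    ring
  rcases (UpperHalfPlane.mul_eq_zero_iff hmd hg).mp hprod with h | h
  · exact sub_eq_zero.mp h
  · exact absurd h hg0

/-- a quotient of negative weight vanishes -/
theorem quot_eq_zero {f g R : ℍ → ℂ} (hg : MDiff g) (hR : MDiff R)
    (hfR : ∀ z, f z = g z * R z) (a c : ℤ)
    (hf_tr : ∀ (γ : SL(2, ℤ)) (z : ℍ), f (γ • z) = denom γ z ^ a * f z)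
    (hg_tr : ∀ (γ : SL(2, ℤ)) (z : ℍ), g (γ • z) = denom γ z ^ c * g z)
    (hfb : IsBoundedAtImInfty f) (hgl : Tendsto g atImInfty (𝓝 1)) (hac : a < c) :
    R = 0 := by
  have hgev : ∀ᶠ z in atImInfty, (1 / 2 : ℝ) < ‖g z‖ := by
    have h1 : Tendsto (fun z => ‖g z‖) atImInfty (𝓝 ‖(1 : ℂ)‖) := hgl.norm
    rw [norm_one] at h1
    exact h1.eventually (lt_mem_nhds (by norm_num))
  have hg0 : g ≠ 0 := by
    obtain ⟨z, hz⟩ := hgev.exists
    intro h
    rw [h] at hz
    simp at hz
    linarith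
  have hslash : ∀ γ : SL(2, ℤ), R ∣[a - c] γ = R :=
    quot_slash hg hR hg0 hfR a c hf_tr hg_tr
  have hRb : IsBoundedAtImInfty R := by
    have hfb' : f =O[atImInfty] (1 : ℍ → ℝ) := hfb
    have hRf : R =O[atImInfty] f := by
      refine Asymptotics.IsBigO.of_bound 2 ?_
      filter_upwards [hgev] with z hz
      rw [hfR z, norm_mul]
      nlinarith [norm_nonneg (R z), norm_nonneg (g z)]
    exact hRf.trans hfb'
  let Rf : ModularForm 𝒮ℒ (a - c) :=
    { toFun := R
      slash_action_eq' := by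
        rintro _ ⟨γ, rfl⟩
        exact hslash γ
      holo' := hR
      bdd_at_cusps' := by
        intro c' hc'
        rw [OnePoint.isBoundedAt_iff_forall_SL2Z hc']
        intro γ _
        rw [hslash γ]
        exact hRb }
  have := ModularFormClass.levelOne_neg_weight_eq_zero (by omega : a - c < 0) Rf
  exact this

end RH

end

end Fermat.Agent.S21.E
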