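import Fermat.Agent.S21.E.J1

/-!
# Project ES, part E, package E-RH: transport along `SL(2,ℤ)`-orbits

Helper lemmas for `total_ge`:
* Möbius maps are locally bi-Lipschitz (`smul_lipschitz`, `smul_antilipschitz`);
* transport of an upper bound `‖F z‖ ≤ C ‖z - z₀‖ ^ A` along an orbit (`upper_transport`);
* lower bounds for `E₆`, `E₄` at all points (`E6_lower_bound`, `E4_lower_bound`);
* the bound needed for the division by `E₆ ^ A * E₄ ^ B` (`quotient_bound`).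
-/

set_option autoImplicit false

open UpperHalfPlane hiding I
open Complex Filter Function Topology
open scoped Manifold MatrixGroups ModularForm Real

namespace Fermat.Agent.S21.E.RHTransport

noncomputable section

local notation "Δ" => ModularForm.discriminant
local notation "E₄" => ModularForm.E₄
local notation "E₆" => ModularForm.E₆

lemma continuous_smul_SL (g : SL(2, ℤ)) : Continuous (fun z : ℍ => g • z) :=
  (continuous_const_smul (g : GL (Fin 2) ℝ) : Continuous (fun z : ℍ => (g : GL (Fin 2) ℝ) • z))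

/-- Möbius maps are locally Lipschitz. -/
lemma smul_lipschitz (g : SL(2, ℤ)) (w₀ : ℍ) :
    ∃ C : ℝ, 0 ≤ C ∧ ∀ᶠ z : ℍ in 𝓝 w₀,
      ‖((g • z : ℍ) : ℂ) - ((g • w₀ : ℍ) : ℂ)‖ ≤ C * ‖(z : ℂ) - w₀‖ := by
  have hdet : (0 : ℝ) < ((g : GL (Fin 2) ℝ)).val.det := by
    have : ((g : GL (Fin 2) ℝ)).val.det = 1 := by
      rw [← Matrix.GeneralLinearGroup.val_det_apply]; simp
    rw [this]; exact one_pos
  have hd := (UpperHalfPlane.hasStrictDerivAt_smul hdet w₀).hasDerivAt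
  obtain ⟨C, hC⟩ := hd.isBigO_sub.bound
  refine ⟨max C 0, le_max_right _ _, ?_⟩
  filter_upwards [J1.eventually_coe hC] with z hz
  simp only [ofComplex_apply] at hz
  exact hz.trans (mul_le_mul_of_nonneg_right (le_max_left _ _) (norm_nonneg _))

/-- Möbius maps are locally anti-Lipschitz. -/
lemma smul_antilipschitz (g : SL(2, ℤ)) (w₀ : ℍ) :
    ∃ c : ℝ, 0 < c ∧ ∀ᶠ z : ℍ in 𝓝 w₀,
      c * ‖(z : ℂ) - w₀‖ ≤ ‖((g • z : ℍ) : ℂ) - ((g • w₀ : ℍ) : ℂ)‖ := by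
  obtain ⟨C, hC0, hC⟩ := smul_lipschitz g⁻¹ (g • w₀)
  have hcont : Tendsto (fun z : ℍ => g • z) (𝓝 w₀) (𝓝 (g • w₀)) :=
    (continuous_smul_SL g).tendsto w₀
  refine ⟨(C + 1)⁻¹, by positivity, ?_⟩
  filter_upwards [hcont.eventually hC] with z hz
  rw [inv_smul_smul, inv_smul_smul] at hz
  have h1 : ‖(z : ℂ) - w₀‖ ≤ (C + 1) * ‖((g • z : ℍ) : ℂ) - ((g • w₀ : ℍ) : ℂ)‖ :=
    hz.trans (mul_le_mul_of_nonneg_right (by linarith) (norm_nonneg _))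
  rw [inv_mul_le_iff₀ (by positivity)]
  exact h1

/-- Transport of an upper bound along an orbit, for a function whose norm is
`SL(2,ℤ)`-invariant. -/
theorem upper_transport {F : ℍ → ℂ} (hF : ∀ (g : SL(2, ℤ)) (z : ℍ), ‖F (g • z)‖ = ‖F z‖)
    {z₀ : ℍ} {A : ℕ}
    (h : ∃ C : ℝ, ∀ᶠ z : ℍ in 𝓝 z₀, ‖F z‖ ≤ C * ‖(z : ℂ) - z₀‖ ^ A) (g : SL(2, ℤ)) :
    ∃ C : ℝ, ∀ᶠ z : ℍ in 𝓝 (g • z₀), ‖F z‖ ≤ C * ‖(z : ℂ) - ((g • z₀ : ℍ) : ℂ)‖ ^ A := by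
  obtain ⟨C, hC⟩ := h
  obtain ⟨L, hL0, hL⟩ := smul_lipschitz g⁻¹ (g • z₀)
  have hcont : Tendsto (fun z : ℍ => g⁻¹ • z) (𝓝 (g • z₀)) (𝓝 z₀) := by
    have := (continuous_smul_SL g⁻¹).tendsto (g • z₀)
    rwa [inv_smul_smul] at this
  refine ⟨max C 0 * L ^ A, ?_⟩
  filter_upwards [hcont.eventually hC, hL] with z hz hzL
  rw [inv_smul_smul] at hzL
  have h1 : ‖F z‖ = ‖F (g⁻¹ • z)‖ := by
    conv_lhs => rw [← smul_inv_smul g z]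
    exact hF g _
  rw [h1]
  calc ‖F (g⁻¹ • z)‖ ≤ C * ‖((g⁻¹ • z : ℍ) : ℂ) - z₀‖ ^ A := hz
    _ ≤ max C 0 * ‖((g⁻¹ • z : ℍ) : ℂ) - z₀‖ ^ A :=
        mul_le_mul_of_nonneg_right (le_max_left _ _) (by positivity)
    _ ≤ max C 0 * (L * ‖(z : ℂ) - ((g • z₀ : ℍ) : ℂ)‖) ^ A :=
        mul_le_mul_of_nonneg_left (pow_le_pow_left₀ (norm_nonneg _) hzL A) (le_max_right _ _)
    _ = max C 0 * L ^ A * ‖(z : ℂ) - ((g • z₀ : ℍ) : ℂ)‖ ^ A := by rw [mul_pow]; ring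

/-- lower bound for `E₆` near any of its zeros -/
theorem E6_lower_bound {z₀ : ℍ} (h : E₆ z₀ = 0) :
    ∃ c : ℝ, 0 < c ∧ ∀ᶠ z : ℍ in 𝓝 z₀, c * ‖(z : ℂ) - z₀‖ ≤ ‖E₆ z‖ := by
  obtain ⟨c, hc, h⟩ := J1.lower_bound_of_order_eq (n := 1) (z₀ := z₀)
    (Fermat.Agent.S21.J1.levelOne_mdiff E₆)
    (by simpa using Fermat.Agent.S21.J1.analyticOrderAt_E₆_of_eq_zero h)
  refine ⟨c, hc, ?_⟩
  filter_upwards [h] with z hz
  rw [pow_one] at hz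
  exact hz

/-- lower bound for `E₄` near any of its zeros -/
theorem E4_lower_bound {z₀ : ℍ} (h : E₄ z₀ = 0) :
    ∃ c : ℝ, 0 < c ∧ ∀ᶠ z : ℍ in 𝓝 z₀, c * ‖(z : ℂ) - z₀‖ ≤ ‖E₄ z‖ := by
  obtain ⟨c, hc, h⟩ := J1.lower_bound_of_order_eq (n := 1) (z₀ := z₀)
    (Fermat.Agent.S21.J1.levelOne_mdiff E₄)
    (by simpa using Fermat.Agent.S21.J1.analyticOrderAt_E₄_of_eq_zero h)
  refine ⟨c, hc, ?_⟩
  filter_upwards [h] with z hz
  rw [pow_one] at hz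
  exact hz

/-- lower bound for `E₆` on the orbit of `i` -/
theorem E6_lower_bound_orbit (g : SL(2, ℤ)) :
    ∃ c : ℝ, 0 < c ∧ ∀ᶠ z : ℍ in 𝓝 (g • UpperHalfPlane.I),
      c * ‖(z : ℂ) - ((g • UpperHalfPlane.I : ℍ) : ℂ)‖ ≤ ‖E₆ z‖ :=
  E6_lower_bound ((E6_zero_iff _).mpr ⟨g, rfl⟩)

/-- lower bound for `E₄` on the orbit of `ρ` -/
theorem E4_lower_bound_orbit (g : SL(2, ℤ)) :
    ∃ c : ℝ, 0 < c ∧ ∀ᶠ z : ℍ in 𝓝 (g • rho),
      c * ‖(z : ℂ) - ((g • rho : ℍ) : ℂ)‖ ≤ ‖E₄ z‖ :=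
  E4_lower_bound ((E4_zero_iff _).mpr ⟨g, rfl⟩)

/-- a continuous function is bounded below near a point where it does not vanish -/
lemma lower_bound_of_ne_zero {F : ℍ → ℂ} (hF : MDiff F) {z₀ : ℍ} (h : F z₀ ≠ 0) :
    ∃ c : ℝ, 0 < c ∧ ∀ᶠ z : ℍ in 𝓝 z₀, c ≤ ‖F z‖ := by
  have hc : ContinuousAt F z₀ := (hF z₀).continuousAt
  have hpos : 0 < ‖F z₀‖ := norm_pos_iff.mpr h
  refine ⟨‖F z₀‖ / 2, by positivity, ?_⟩
  have : ∀ᶠ z in 𝓝 z₀, ‖F z₀‖ / 2 < ‖F z‖ :=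
    continuousAt_const.eventually_lt hc.norm (by linarith)
  exact this.mono fun z hz => hz.le

/-- **The bound needed for the division by `E₆ ^ A * E₄ ^ B`.**  If `F` has
`SL(2,ℤ)`-invariant norm and vanishes to order `≥ A` at `i` and to order `≥ B` at `ρ`, and
`H` is holomorphic, then `F * H` is `O(E₆ ^ A * E₄ ^ B)` near every zero of `E₆ ^ A * E₄ ^ B`. -/
theorem quotient_bound {F H : ℍ → ℂ} (hF : ∀ (g : SL(2, ℤ)) (z : ℍ), ‖F (g • z)‖ = ‖F z‖)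
    (hH : MDiff H) {A B : ℕ}
    (hI : ∃ C : ℝ, ∀ᶠ z : ℍ in 𝓝 UpperHalfPlane.I, ‖F z‖ ≤ C * ‖(z : ℂ) - Complex.I‖ ^ A)
    (hρ : ∃ C : ℝ, ∀ᶠ z : ℍ in 𝓝 rho, ‖F z‖ ≤ C * ‖(z : ℂ) - rho‖ ^ B)
    (z₀ : ℍ) (hz₀ : E₆ z₀ ^ A * E₄ z₀ ^ B = 0) :
    ∃ C : ℝ, ∀ᶠ z : ℍ in 𝓝 z₀, ‖F z * H z‖ ≤ C * ‖E₆ z ^ A * E₄ z ^ B‖ := by
  obtain ⟨CH, hCH0, hCH⟩ := J1.bounded_near hH z₀
  rcases mul_eq_zero.mp hz₀ with h6 | h4
  · -- `z₀` is in the orbit of `i`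
    have h6' : E₆ z₀ = 0 := eq_zero_of_pow_eq_zero h6
    obtain ⟨g, rfl⟩ := (E6_zero_iff z₀).mp h6'
    obtain ⟨C, hC⟩ := upper_transport hF hI g
    obtain ⟨c, hc, hcb⟩ := E6_lower_bound h6'
    have h4ne : E₄ (g • UpperHalfPlane.I) ≠ 0 := fun h =>
      Fermat.Agent.S21.J1.E₄_E₆_not_both_zero _ ⟨h, h6'⟩
    obtain ⟨m, hm, hmb⟩ := lower_bound_of_ne_zero (Fermat.Agent.S21.J1.levelOne_mdiff E₄) h4ne
    refine ⟨max C 0 * CH / (c ^ A * m ^ B), ?_⟩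
    filter_upwards [hC, hcb, hmb, hCH] with z hz hzc hzm hzH
    have hden : 0 < c ^ A * m ^ B := by positivity
    rw [div_mul_eq_mul_div, le_div_iff₀ hden, norm_mul, norm_mul, norm_pow, norm_pow]
    set r := ‖(z : ℂ) - ((g • UpperHalfPlane.I : ℍ) : ℂ)‖ with hr
    have hr0 : 0 ≤ r := norm_nonneg _
    have h1 : ‖F z‖ ≤ max C 0 * r ^ A :=
      hz.trans (mul_le_mul_of_nonneg_right (le_max_left _ _) (by positivity))
    have h2 : (c * r) ^ A ≤ ‖E₆ z‖ ^ A := pow_le_pow_left₀ (by positivity) hzc A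
    have h3 : m ^ B ≤ ‖E₄ z‖ ^ B := pow_le_pow_left₀ hm.le hzm B
    have hM : 0 ≤ max C 0 := le_max_right _ _
    calc ‖F z‖ * ‖H z‖ * (c ^ A * m ^ B)
        ≤ (max C 0 * r ^ A) * CH * (c ^ A * m ^ B) := by
          apply mul_le_mul_of_nonneg_right _ hden.le
          exact mul_le_mul h1 hzH (norm_nonneg _) (by positivity)
      _ = max C 0 * CH * ((c * r) ^ A * m ^ B) := by rw [mul_pow]; ring
      _ ≤ max C 0 * CH * (‖E₆ z‖ ^ A * ‖E₄ z‖ ^ B) := by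
          apply mul_le_mul_of_nonneg_left _ (by positivity)
          exact mul_le_mul h2 h3 (by positivity) (by positivity)
  · -- `z₀` is in the orbit of `ρ`
    have h4' : E₄ z₀ = 0 := eq_zero_of_pow_eq_zero h4
    obtain ⟨g, rfl⟩ := (E4_zero_iff z₀).mp h4'
    obtain ⟨C, hC⟩ := upper_transport hF hρ g
    obtain ⟨c, hc, hcb⟩ := E4_lower_bound h4'
    have h6ne : E₆ (g • rho) ≠ 0 := fun h =>
      Fermat.Agent.S21.J1.E₄_E₆_not_both_zero _ ⟨h4', h⟩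
    obtain ⟨m, hm, hmb⟩ := lower_bound_of_ne_zero (Fermat.Agent.S21.J1.levelOne_mdiff E₆) h6ne
    refine ⟨max C 0 * CH / (m ^ A * c ^ B), ?_⟩
    filter_upwards [hC, hcb, hmb, hCH] with z hz hzc hzm hzH
    have hden : 0 < m ^ A * c ^ B := by positivity
    rw [div_mul_eq_mul_div, le_div_iff₀ hden, norm_mul, norm_mul, norm_pow, norm_pow]
    set r := ‖(z : ℂ) - ((g • rho : ℍ) : ℂ)‖ with hr
    have hr0 : 0 ≤ r := norm_nonneg _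
    have h1 : ‖F z‖ ≤ max C 0 * r ^ B :=
      hz.trans (mul_le_mul_of_nonneg_right (le_max_left _ _) (by positivity))
    have h2 : (c * r) ^ B ≤ ‖E₄ z‖ ^ B := pow_le_pow_left₀ (by positivity) hzc B
    have h3 : m ^ A ≤ ‖E₆ z‖ ^ A := pow_le_pow_left₀ hm.le hzm A
    have hM : 0 ≤ max C 0 := le_max_right _ _
    calc ‖F z‖ * ‖H z‖ * (m ^ A * c ^ B)
        ≤ (max C 0 * r ^ B) * CH * (m ^ A * c ^ B) := by
          apply mul_le_mul_of_nonneg_right _ hden.le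
          exact mul_le_mul h1 hzH (norm_nonneg _) (by positivity)
      _ = max C 0 * CH * (m ^ A * (c * r) ^ B) := by rw [mul_pow]; ring
      _ ≤ max C 0 * CH * (‖E₆ z‖ ^ A * ‖E₄ z‖ ^ B) := by
          apply mul_le_mul_of_nonneg_left _ (by positivity)
          exact mul_le_mul h3 h2 (by positivity) (by positivity)

end

end Fermat.Agent.S21.E.RHTransport
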